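import Fermat.Agent.LT.T7.H193.NatMatchSpec

/-!
# Row LT, tower T7, node T7.L2.1, sub-station NAT-MATCH, leaf RT.1 `KerUnitsC` (helper634, OFF-MAIN)

`kerUnitsC634 K K' : T7.H193.KerUnitsC K K'` — VERBATIM the frozen Prop of
`Fermat/Agent/LT/T7/H193/NatMatchSpec.lean` (helper193@2b431d43c, sha256 `4d7f0df5b118…`).
Imports: the spec only.  New names only (suffix `634`), no hole, nothing assumed.

Proof.  `G = Gal(K'/K)` acts on the infinite places of `K'`, the fibres of
`InfinitePlace K' → InfinitePlace K` are the orbits (`exists_smul_eq_of_comap_eq`).  For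
`x ∈ ker N` the average `∑_σ x(σ ·)` is constant on the fibres and in `ker N`, hence `0`; so
`|G| x = ∑_σ (x - x(σ ·)) = A x`.  The linear map `A` kills the constants and maps the log vector
of a unit `ε ≡ 1 mod 𝔫 𝒪_{K'}` to the sum of the log vectors of the units `ε / σ⁻¹ ε`, which are
`≡ 1 mod 𝔫 𝒪_{K'}` and have log vectors in `ker N`.  By `DirichletC K'` (proved below, second
part: Mathlib's Dirichlet unit theorem) the constants and the log vectors of the units
`≡ 1 mod 𝔫 𝒪_{K'}` span, so the log vectors of the units `≡ 1` in `ker N` span `ker N`; a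
spanning set contains a basis (`exists_linearIndependent`).  Neither the primality of the degree
nor `TotCplx K` is used.
-/

set_option autoImplicit false
set_option linter.unusedSectionVars false
set_option linter.unusedVariables false

open IsDedekindDomain NumberField MeasureTheory

noncomputable section

namespace Fermat.Agent.LT.T7.H634

open Fermat.Agent.LT.T7 Fermat.Agent.LT.T7.H193

/-! ## 1. `DirichletC` (Mathlib's unit theorem) -/

section Dirichlet

open NumberField.Units NumberField.Units.dirichletUnitTheorem NumberField.InfinitePlace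

variable (K : Type) [Field K] [NumberField K]

/-- A power of every unit is `≡ 1 mod 𝔑`. -/
theorem exists_exp634 (𝔑 : Ideal (𝓞 K)) (h𝔑 : 𝔑 ≠ ⊥) :
    ∃ m : ℕ, m ≠ 0 ∧ ∀ ε : (𝓞 K)ˣ, ((ε ^ m : (𝓞 K)ˣ) : 𝓞 K) - 1 ∈ 𝔑 := by
  have : Finite (𝓞 K ⧸ 𝔑) := Ideal.finiteQuotientOfFreeOfNeBot 𝔑 h𝔑
  have : Finite (𝓞 K ⧸ 𝔑)ˣ := inferInstance
  refine ⟨Nat.card (𝓞 K ⧸ 𝔑)ˣ, Nat.card_pos.ne', fun ε => ?_⟩
  have h1 : (Units.map (Ideal.Quotient.mk 𝔑 : 𝓞 K →* 𝓞 K ⧸ 𝔑) ε) ^ Nat.card (𝓞 K ⧸ 𝔑)ˣ = 1 :=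
    pow_card_eq_one'
  have h2 := congrArg (fun u : (𝓞 K ⧸ 𝔑)ˣ => (u : 𝓞 K ⧸ 𝔑)) h1
  simp only [Units.val_pow_eq_pow_val, Units.coe_map, MonoidHom.coe_coe, Units.val_one] at h2
  rw [← Ideal.Quotient.eq_zero_iff_mem, map_sub, map_one, Units.val_pow_eq_pow_val, map_pow, h2,
    sub_self]

/-- The log vectors of the fundamental system, in `logSpace`. -/
def logBasis634 (i : Fin (rank K)) : logSpace K :=
  fun w => mult w.val * Real.log (w.val (fundSystem K i : 𝓞 K))

theorem logBasis634_apply (i : Fin (rank K)) (w : {w : InfinitePlace K // w ≠ w₀}) :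
    logBasis634 K i w = mult w.val * Real.log (w.val (fundSystem K i : 𝓞 K)) := rfl

theorem logBasis634_linearIndependent : LinearIndependent ℝ (logBasis634 K) := by
  have h := isMaxRank_fundSystem K
  unfold IsMaxRank at h
  exact h

/-- The bijection of the places `≠ w₀` with `Fin (rank K)`. -/
def eqv634 : {w : InfinitePlace K // w ≠ w₀} ≃ Fin (rank K) := by
  classical
  refine Fintype.equivOfCardEq ?_
  rw [Fintype.card_subtype_compl, Fintype.card_subtype_eq, Fintype.card_fin, rank]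

open Classical in
/-- The family: the constant vector at `w₀`, log vectors of units elsewhere. -/
def fam634 (c : ℝ) (m : ℕ) (i : InfinitePlace K) : InfinitePlace K → ℝ :=
  if h : i = w₀ then fun _ => c
  else fun w => Real.log (w (((fundSystem K (eqv634 K ⟨i, h⟩) ^ m : (𝓞 K)ˣ) : 𝓞 K) : K))

theorem fam634_w₀ (c : ℝ) (m : ℕ) : fam634 K c m w₀ = fun _ => c := by
  unfold fam634
  rw [dif_pos rfl]

theorem fam634_ne (c : ℝ) (m : ℕ) (i : InfinitePlace K) (h : i ≠ w₀) (w : InfinitePlace K) :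
    fam634 K c m i w = m * Real.log (w ((fundSystem K (eqv634 K ⟨i, h⟩) : 𝓞 K) : K)) := by
  unfold fam634
  rw [dif_neg h]
  simp only [Units.val_pow_eq_pow_val, RingOfIntegers.coe_eq_algebraMap, map_pow, Real.log_pow]

theorem fam634_linearIndependent (c : ℝ) (hc : c ≠ 0) (m : ℕ) (hm : m ≠ 0) :
    LinearIndependent ℝ (fam634 K c m) := by
  classical
  rw [Fintype.linearIndependent_iff]
  intro g hg
  -- the functional `∑ mult w · x_w`
  have hφ : ∑ w : InfinitePlace K, (mult w : ℝ) * (∑ i, g i • fam634 K c m i) w = 0 := by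
    rw [hg]
    simp
  have hsplit : ∀ w : InfinitePlace K, (∑ i, g i • fam634 K c m i) w =
      g w₀ * c + ∑ i : {i : InfinitePlace K // i ≠ w₀},
        g i.1 * (m * Real.log (w ((fundSystem K (eqv634 K i) : 𝓞 K) : K))) := by
    intro w
    rw [Finset.sum_apply, Fintype.sum_eq_add_sum_subtype_ne _ w₀]
    congr 1
    · rw [Pi.smul_apply, fam634_w₀, smul_eq_mul]
    · refine Finset.sum_congr rfl fun i _ => ?_
      rw [Pi.smul_apply, smul_eq_mul, fam634_ne K c m i.1 i.2]
  have hunit : ∀ i : {i : InfinitePlace K // i ≠ w₀},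
      ∑ w : InfinitePlace K, (mult w : ℝ) *
        (g i.1 * (m * Real.log (w ((fundSystem K (eqv634 K i) : 𝓞 K) : K)))) = 0 := by
    intro i
    have := sum_mult_mul_log (fundSystem K (eqv634 K i))
    calc ∑ w : InfinitePlace K, (mult w : ℝ) *
          (g i.1 * (m * Real.log (w ((fundSystem K (eqv634 K i) : 𝓞 K) : K))))
        = (g i.1 * m) * ∑ w : InfinitePlace K, (mult w : ℝ) *
            Real.log (w ((fundSystem K (eqv634 K i) : 𝓞 K) : K)) := by
          rw [Finset.mul_sum]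
          refine Finset.sum_congr rfl fun w _ => ?_
          ring
      _ = 0 := by rw [this, mul_zero]
  have h0 : g w₀ = 0 := by
    simp only [hsplit, mul_add, Finset.sum_add_distrib, Finset.mul_sum] at hφ
    rw [Finset.sum_comm] at hφ
    have h2 : ∑ i : {i : InfinitePlace K // i ≠ w₀}, ∑ w : InfinitePlace K, (mult w : ℝ) *
        (g i.1 * (m * Real.log (w ((fundSystem K (eqv634 K i) : 𝓞 K) : K)))) = 0 :=
      Finset.sum_eq_zero fun i _ => hunit i
    rw [h2, add_zero, ← Finset.sum_mul] at hφ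
    have hpos : (0 : ℝ) < ∑ w : InfinitePlace K, (mult w : ℝ) := by
      refine Finset.sum_pos (fun w _ => ?_) Finset.univ_nonempty
      exact_mod_cast mult_pos
    rcases mul_eq_zero.1 hφ with h | h
    · exact absurd h hpos.ne'
    · rcases mul_eq_zero.1 h with h' | h'
      · exact h'
      · exact absurd h' hc
  -- the log vectors
  have hlog : ∑ i : {i : InfinitePlace K // i ≠ w₀},
      (g i.1 * m) • logBasis634 K (eqv634 K i) = 0 := by
    funext w
    have := congrFun hg w.1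
    rw [hsplit, h0, zero_mul, zero_add, Pi.zero_apply] at this
    rw [Finset.sum_apply, Pi.zero_apply]
    have h3 : ∑ i : {i : InfinitePlace K // i ≠ w₀},
        ((g i.1 * m) • logBasis634 K (eqv634 K i)) w =
        (mult w.1 : ℝ) * ∑ i : {i : InfinitePlace K // i ≠ w₀},
          g i.1 * (m * Real.log (w.1 ((fundSystem K (eqv634 K i) : 𝓞 K) : K))) := by
      rw [Finset.mul_sum]
      refine Finset.sum_congr rfl fun i _ => ?_
      rw [Pi.smul_apply, smul_eq_mul, logBasis634_apply]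
      ring
    rw [h3, this, mul_zero]
  have hli := logBasis634_linearIndependent K
  have hli' : LinearIndependent ℝ fun i : {i : InfinitePlace K // i ≠ w₀} =>
      logBasis634 K (eqv634 K i) := hli.comp _ (eqv634 K).injective
  rw [Fintype.linearIndependent_iff] at hli'
  have hz := hli' (fun i => g i.1 * m) hlog
  intro i
  by_cases hi : i = w₀
  · rw [hi]; exact h0
  · have := hz ⟨i, hi⟩
    simp only at this
    rcases mul_eq_zero.1 this with h | h
    · exact h
    · exact absurd (Nat.cast_eq_zero.1 h) hm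

/-- **PROJ.7 `DirichletC`** (VERBATIM `T7.H193.DirichletC K`; the proof of helper800,
`LT/T7/H800/Dirichlet.lean`, with new names, so that this file imports the spec only). -/
theorem dirichletC634 : H193.DirichletC K := by
  classical
  intro 𝔑 h𝔑 c hc
  obtain ⟨m, hm, hmε⟩ := exists_exp634 K 𝔑 h𝔑
  have hcard : Fintype.card (InfinitePlace K) = Module.finrank ℝ (InfinitePlace K → ℝ) := by
    rw [Module.finrank_fintype_fun_eq_card]
  refine ⟨basisOfLinearIndependentOfCardEqFinrank (fam634_linearIndependent K c hc m hm) hcard,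
    fun i => ?_⟩
  rw [coe_basisOfLinearIndependentOfCardEqFinrank]
  by_cases hi : i = w₀
  · left
    rw [hi, fam634_w₀]
  · right
    refine ⟨fundSystem K (eqv634 K ⟨i, hi⟩) ^ m, hmε _, ?_⟩
    unfold fam634
    rw [dif_neg hi]

end Dirichlet

/-! ## 2. The Galois average -/

section KerUnits

variable {K K' : Type} [Field K] [NumberField K] [Field K'] [NumberField K'] [Algebra K K']

theorem fibSum_apply634 (x : InfinitePlace K' → ℝ) (v : InfinitePlace K) :
    fibSum193 (K := K) x v = ∑ w : InfinitePlace K',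
      @ite ℝ (w.comap (algebraMap K K') = v) (Classical.propDecidable _) (x w) 0 := rfl

theorem logVec_apply634 (ε : (𝓞 K')ˣ) (w : InfinitePlace K') :
    logVec193 ε w = Real.log (w (((ε : 𝓞 K')) : K')) := rfl

variable (K K') in
/-- `N` as a linear map. -/
def fibL634 : (InfinitePlace K' → ℝ) →ₗ[ℝ] (InfinitePlace K → ℝ) where
  toFun := fibSum193 (K := K)
  map_add' x y := by
    funext v
    rw [Pi.add_apply, fibSum_apply634, fibSum_apply634, fibSum_apply634, ← Finset.sum_add_distrib]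
    refine Finset.sum_congr rfl fun w _ => ?_
    by_cases h : w.comap (algebraMap K K') = v
    · rw [if_pos h, if_pos h, if_pos h, Pi.add_apply]
    · rw [if_neg h, if_neg h, if_neg h, add_zero]
  map_smul' c x := by
    funext v
    rw [Pi.smul_apply, fibSum_apply634, fibSum_apply634, RingHom.id_apply, smul_eq_mul,
      Finset.mul_sum]
    refine Finset.sum_congr rfl fun w _ => ?_
    by_cases h : w.comap (algebraMap K K') = v
    · rw [if_pos h, if_pos h, Pi.smul_apply, smul_eq_mul]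
    · rw [if_neg h, if_neg h, mul_zero]

theorem fibL_apply634 (x : InfinitePlace K' → ℝ) : fibL634 K K' x = fibSum193 (K := K) x := rfl

/-- The translation of a vector by an automorphism. -/
def tw634 (σ : K' ≃ₐ[K] K') : (InfinitePlace K' → ℝ) →ₗ[ℝ] (InfinitePlace K' → ℝ) :=
  LinearMap.funLeft ℝ ℝ (fun w : InfinitePlace K' => σ • w)

theorem tw_apply634 (σ : K' ≃ₐ[K] K') (x : InfinitePlace K' → ℝ) (w : InfinitePlace K') :
    tw634 σ x w = x (σ • w) := rfl

theorem comap_smul634 (σ : K' ≃ₐ[K] K') (w : InfinitePlace K') :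
    (σ • w).comap (algebraMap K K') = w.comap (algebraMap K K') := by
  refine DFunLike.ext _ _ fun x => ?_
  show (σ • w) (algebraMap K K' x) = w (algebraMap K K' x)
  rw [InfinitePlace.smul_apply, AlgEquiv.commutes]

/-- `N` is invariant under the translations. -/
theorem fibSum_tw634 (σ : K' ≃ₐ[K] K') (x : InfinitePlace K' → ℝ) :
    fibSum193 (K := K) (tw634 σ x) = fibSum193 (K := K) x := by
  funext v
  rw [fibSum_apply634, fibSum_apply634]
  have h : ∀ w : InfinitePlace K',
      @ite ℝ (w.comap (algebraMap K K') = v) (Classical.propDecidable _) (tw634 σ x w) 0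
        = (fun w' : InfinitePlace K' =>
            @ite ℝ (w'.comap (algebraMap K K') = v) (Classical.propDecidable _) (x w') 0)
          ((MulAction.toPerm σ : Equiv.Perm (InfinitePlace K')) w) := by
    intro w
    show _ = @ite ℝ ((σ • w).comap (algebraMap K K') = v) (Classical.propDecidable _)
      (x (σ • w)) 0
    rw [comap_smul634, tw_apply634]
  exact (Finset.sum_congr rfl fun w _ => h w).trans
    (Equiv.sum_comp (MulAction.toPerm σ : Equiv.Perm (InfinitePlace K'))
      (fun w' : InfinitePlace K' =>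
        @ite ℝ (w'.comap (algebraMap K K') = v) (Classical.propDecidable _) (x w') 0))

/-- The average of a vector of `ker N` over the Galois group vanishes. -/
theorem sum_tw_eq_zero634 [IsGalois K K'] [Fintype (K' ≃ₐ[K] K')]
    (x : InfinitePlace K' → ℝ) (hx : fibSum193 (K := K) x = 0) :
    ∑ σ : K' ≃ₐ[K] K', tw634 σ x = 0 := by
  classical
  set f : InfinitePlace K' → ℝ := ∑ σ : K' ≃ₐ[K] K', tw634 σ x with hf
  have hfw : ∀ w, f w = ∑ σ : K' ≃ₐ[K] K', x (σ • w) := by
    intro w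
    rw [hf, Finset.sum_apply]
    rfl
  -- constant on the orbits
  have h1 : ∀ (τ : K' ≃ₐ[K] K') (w : InfinitePlace K'), f (τ • w) = f w := by
    intro τ w
    rw [hfw, hfw]
    refine Fintype.sum_equiv (Equiv.mulRight τ) _ _ fun σ => ?_
    rw [Equiv.coe_mulRight, mul_smul]
  -- in the kernel
  have h2 : fibSum193 (K := K) f = 0 := by
    rw [← fibL_apply634, hf, map_sum]
    refine Finset.sum_eq_zero fun σ _ => ?_
    rw [fibL_apply634, fibSum_tw634, hx]
  funext w
  have h3 := congrFun h2 (w.comap (algebraMap K K'))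
  rw [fibSum_apply634, Pi.zero_apply] at h3
  have h4 : ∀ w' : InfinitePlace K',
      @ite ℝ (w'.comap (algebraMap K K') = w.comap (algebraMap K K'))
        (Classical.propDecidable _) (f w') 0
      = @ite ℝ (w'.comap (algebraMap K K') = w.comap (algebraMap K K'))
        (Classical.propDecidable _) (f w) 0 := by
    intro w'
    by_cases h : w'.comap (algebraMap K K') = w.comap (algebraMap K K')
    · rw [if_pos h, if_pos h]
      obtain ⟨τ, rfl⟩ := InfinitePlace.exists_smul_eq_of_comap_eq h.symm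
      exact h1 τ w
    · rw [if_neg h, if_neg h]
  rw [Finset.sum_congr rfl fun w' _ => h4 w', ← Finset.sum_filter, Finset.sum_const,
    nsmul_eq_mul] at h3
  rcases mul_eq_zero.1 h3 with h | h
  · exfalso
    have hmem : w ∈ (Finset.univ : Finset (InfinitePlace K')).filter
        (fun w' => w'.comap (algebraMap K K') = w.comap (algebraMap K K')) := by
      rw [Finset.mem_filter]
      exact ⟨Finset.mem_univ _, rfl⟩
    have hcard := Finset.card_pos.2 ⟨w, hmem⟩
    rw [Nat.cast_eq_zero] at h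
    omega
  · rw [Pi.zero_apply]
    exact h

/-! ## 3. The units `ε / σ ε` -/

theorem logVec_mul634 (a b : (𝓞 K')ˣ) : logVec193 (a * b) = logVec193 a + logVec193 b := by
  funext w
  have h : ((((a * b : (𝓞 K')ˣ) : 𝓞 K')) : K') = (((a : 𝓞 K')) : K') * (((b : 𝓞 K')) : K') := rfl
  rw [Pi.add_apply, logVec_apply634, logVec_apply634, logVec_apply634, h, map_mul, Real.log_mul]
  · exact (map_ne_zero w).2 (NumberField.Units.coe_ne_zero a)
  · exact (map_ne_zero w).2 (NumberField.Units.coe_ne_zero b)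

theorem logVec_one634 : logVec193 (1 : (𝓞 K')ˣ) = 0 := by
  funext w
  have h : ((((1 : (𝓞 K')ˣ) : 𝓞 K')) : K') = 1 := rfl
  rw [logVec_apply634, h, map_one, Real.log_one, Pi.zero_apply]

theorem logVec_inv634 (a : (𝓞 K')ˣ) : logVec193 a⁻¹ = - logVec193 a := by
  have h := logVec_mul634 a a⁻¹
  rw [mul_inv_cancel, logVec_one634] at h
  exact (neg_eq_of_add_eq_zero_right h.symm).symm

/-- The ring automorphism of `𝓞 K'` induced by an automorphism of `K'/K`. -/
def galO634 (σ : K' ≃ₐ[K] K') : 𝓞 K' ≃+* 𝓞 K' :=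
  RingOfIntegers.mapRingEquiv (σ : K' ≃+* K')

theorem galO_coe634 (σ : K' ≃ₐ[K] K') (z : 𝓞 K') : ((galO634 σ z : 𝓞 K') : K') = σ (z : K') :=
  rfl

theorem galO_comp634 (σ : K' ≃ₐ[K] K') :
    ((galO634 σ : 𝓞 K' ≃+* 𝓞 K') : 𝓞 K' →+* 𝓞 K').comp (algebraMap (𝓞 K) (𝓞 K'))
      = algebraMap (𝓞 K) (𝓞 K') := by
  refine RingHom.ext fun z => ?_
  apply RingOfIntegers.ext
  show σ (algebraMap K K' (z : K)) = algebraMap K K' (z : K)
  exact σ.commutes _

theorem galO_mem634 (σ : K' ≃ₐ[K] K') (𝔫 : Ideal (𝓞 K)) (z : 𝓞 K')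
    (hz : z ∈ Ideal.map (algebraMap (𝓞 K) (𝓞 K')) 𝔫) :
    galO634 σ z ∈ Ideal.map (algebraMap (𝓞 K) (𝓞 K')) 𝔫 := by
  have h := Ideal.mem_map_of_mem ((galO634 σ : 𝓞 K' ≃+* 𝓞 K') : 𝓞 K' →+* 𝓞 K') hz
  rw [Ideal.map_map, galO_comp634] at h
  exact h

/-- The unit `σ ε`. -/
def galU634 (σ : K' ≃ₐ[K] K') (ε : (𝓞 K')ˣ) : (𝓞 K')ˣ :=
  Units.map ((galO634 σ : 𝓞 K' ≃+* 𝓞 K') : 𝓞 K' →* 𝓞 K') ε

theorem galU_val634 (σ : K' ≃ₐ[K] K') (ε : (𝓞 K')ˣ) :
    ((galU634 σ ε : (𝓞 K')ˣ) : 𝓞 K') = galO634 σ (ε : 𝓞 K') := rfl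

theorem logVec_galU634 (σ : K' ≃ₐ[K] K') (ε : (𝓞 K')ˣ) :
    logVec193 (galU634 σ.symm ε) = tw634 σ (logVec193 ε) := by
  funext w
  rw [tw_apply634, logVec_apply634, logVec_apply634, galU_val634, galO_coe634,
    InfinitePlace.smul_apply]

/-- The set of the log vectors of the units `≡ 1 mod 𝔫 𝒪_{K'}` in `ker N`. -/
def kerSet634 (𝔫 : Ideal (𝓞 K)) : Set (InfinitePlace K' → ℝ) :=
  {y | ∃ u : (𝓞 K')ˣ, ((u : 𝓞 K') - 1 ∈ Ideal.map (algebraMap (𝓞 K) (𝓞 K')) 𝔫) ∧
      fibSum193 (K := K) (logVec193 u) = 0 ∧ logVec193 u = y}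

theorem sub_tw_mem634 (σ : K' ≃ₐ[K] K') (𝔫 : Ideal (𝓞 K)) (ε : (𝓞 K')ˣ)
    (hε : (ε : 𝓞 K') - 1 ∈ Ideal.map (algebraMap (𝓞 K) (𝓞 K')) 𝔫) :
    logVec193 ε - tw634 σ (logVec193 ε) ∈ kerSet634 (K' := K') 𝔫 := by
  have hlog : logVec193 (ε * (galU634 σ.symm ε)⁻¹) = logVec193 ε - tw634 σ (logVec193 ε) := by
    rw [logVec_mul634, logVec_inv634, logVec_galU634, sub_eq_add_neg]
  refine ⟨ε * (galU634 σ.symm ε)⁻¹, ?_, ?_, hlog⟩
  · have h1 : ((galU634 σ.symm ε : (𝓞 K')ˣ) : 𝓞 K') - 1
        ∈ Ideal.map (algebraMap (𝓞 K) (𝓞 K')) 𝔫 := by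
      have := galO_mem634 σ.symm 𝔫 _ hε
      rwa [map_sub, map_one] at this
    have h2 : ((ε * (galU634 σ.symm ε)⁻¹ : (𝓞 K')ˣ) : 𝓞 K') - 1
        = (((ε : 𝓞 K') - 1) - (((galU634 σ.symm ε : (𝓞 K')ˣ) : 𝓞 K') - 1))
          * (((galU634 σ.symm ε)⁻¹ : (𝓞 K')ˣ) : 𝓞 K') := by
      have h3 : ((galU634 σ.symm ε : (𝓞 K')ˣ) : 𝓞 K')
          * (((galU634 σ.symm ε)⁻¹ : (𝓞 K')ˣ) : 𝓞 K') = 1 := Units.mul_inv _
      rw [Units.val_mul]
      linear_combination h3
    rw [h2]
    exact Ideal.mul_mem_right _ _ (Ideal.sub_mem _ hε h1)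
  · rw [hlog, ← fibL_apply634, map_sub, fibL_apply634, fibL_apply634, fibSum_tw634, sub_self]

/-! ## 4. The span -/

theorem mem_span_kerSet634 [IsGalois K K'] (hD : H193.DirichletC K') (𝔫 : Ideal (𝓞 K))
    (h𝔫 : 𝔫 ≠ ⊥) (x : InfinitePlace K' → ℝ) (hx : fibSum193 (K := K) x = 0) :
    x ∈ Submodule.span ℝ (kerSet634 (K' := K') 𝔫) := by
  classical
  let _ : Fintype (K' ≃ₐ[K] K') := Fintype.ofFinite _
  have h𝔑 : Ideal.map (algebraMap (𝓞 K) (𝓞 K')) 𝔫 ≠ ⊥ := by
    intro h
    exact h𝔫 ((Ideal.map_eq_bot_iff_of_injective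
      (NumberField.RingOfIntegers.algebraMap.injective K K')).1 h)
  obtain ⟨b, hb⟩ := hD _ h𝔑 1 one_ne_zero
  set A : (InfinitePlace K' → ℝ) →ₗ[ℝ] (InfinitePlace K' → ℝ) :=
    ∑ σ : K' ≃ₐ[K] K', (LinearMap.id - tw634 σ) with hA
  have hAb : ∀ i, A (b i) ∈ Submodule.span ℝ (kerSet634 (K' := K') 𝔫) := by
    intro i
    rw [hA, LinearMap.sum_apply]
    refine Submodule.sum_mem _ fun σ _ => ?_
    rw [LinearMap.sub_apply, LinearMap.id_apply]
    rcases hb i with h | ⟨ε, hε, h⟩
    · have : b i - tw634 σ (b i) = 0 := by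
        funext w
        rw [Pi.sub_apply, tw_apply634, h, sub_self, Pi.zero_apply]
      rw [this]
      exact Submodule.zero_mem _
    · have h' : b i = logVec193 ε := h
      rw [h']
      exact Submodule.subset_span (sub_tw_mem634 σ 𝔫 ε hε)
  have hAall : ∀ y, A y ∈ Submodule.span ℝ (kerSet634 (K' := K') 𝔫) := by
    intro y
    have hy : y ∈ Submodule.span ℝ (Set.range b) := by
      rw [b.span_eq]
      exact Submodule.mem_top
    induction hy using Submodule.span_induction with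
    | mem z hz =>
      obtain ⟨i, rfl⟩ := hz
      exact hAb i
    | zero => rw [map_zero]; exact Submodule.zero_mem _
    | add y z _ _ hy hz => rw [map_add]; exact Submodule.add_mem _ hy hz
    | smul c y _ hy => rw [map_smul]; exact Submodule.smul_mem _ c hy
  have hAx : A x = (Fintype.card (K' ≃ₐ[K] K') : ℝ) • x := by
    have h0 := sum_tw_eq_zero634 x hx
    rw [hA, LinearMap.sum_apply]
    simp only [LinearMap.sub_apply, LinearMap.id_apply]
    rw [Finset.sum_sub_distrib, h0, sub_zero, Finset.sum_const, Finset.card_univ,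
      Nat.cast_smul_eq_nsmul]
  have hcard : (Fintype.card (K' ≃ₐ[K] K') : ℝ) ≠ 0 := by
    exact_mod_cast Fintype.card_ne_zero
  have hxeq : x = (Fintype.card (K' ≃ₐ[K] K') : ℝ)⁻¹ • A x := by
    rw [hAx, smul_smul, inv_mul_cancel₀ hcard, one_smul]
  rw [hxeq]
  exact Submodule.smul_mem _ _ (hAall x)

variable (K K') in
/-- `KerUnitsC` from `DirichletC K'`. -/
theorem kerUnitsC_of_dirichlet634 (hD : H193.DirichletC K') : H193.KerUnitsC K K' := by
  intro ℓ hcyc _ 𝔫 h𝔫
  have : IsGalois K K' := hcyc.galois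
  obtain ⟨b, hbS, hbspan, hbli⟩ := exists_linearIndependent ℝ (kerSet634 (K' := K') 𝔫)
  have hfin : b.Finite := hbli.setFinite
  have hval : (fun j : b => logVec193 (Classical.choose (hbS j.2)))
      = ((↑) : b → InfinitePlace K' → ℝ) :=
    funext fun j => (Classical.choose_spec (hbS j.2)).2.2
  refine ⟨b, hfin.fintype, fun j => Classical.choose (hbS j.2),
    fun j => (Classical.choose_spec (hbS j.2)).1,
    fun j => (Classical.choose_spec (hbS j.2)).2.1, ?_, ?_⟩
  · rw [hval]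
    exact hbli
  · intro x hx
    rw [hval, Subtype.range_coe, hbspan]
    exact mem_span_kerSet634 hD 𝔫 h𝔫 x hx

end KerUnits

/-- **RT.1 `KerUnitsC`** (VERBATIM `T7.H193.KerUnitsC K K'`). -/
theorem kerUnitsC634 (K K' : Type) [Field K] [NumberField K] [Field K'] [NumberField K']
    [Algebra K K'] : H193.KerUnitsC K K' :=
  kerUnitsC_of_dirichlet634 K K' (dirichletC634 K')

end Fermat.Agent.LT.T7.H634

end
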