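import Fermat.Agent.LT.T7.H563.PTSpec
import Fermat.Agent.LT.T1.H11.LocComp

/-!
# Row LT, tower T7, calculus of pure tensors, leaf PT.3 `ConvAvgC563` (helper634, OFF-MAIN)

`convAvgC634 K : PT563.ConvAvgC563 K` — the frozen Prop of
`Fermat/Agent/LT/T7/H563/PTSpec.lean` (helper563@d74a8461a, sha256 `c4658dddcfd9…`) VERBATIM,
UNCONDITIONAL; `convAvgC_of_locComp634 K : T1.LocCompC K → PT563.ConvAvgC563 K` with the closed
leaf `T1.LocCompC K` (`GL₂(𝔸_K)` is locally compact, Hausdorff, second countable: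
`T1.H11.locCompC_h11`, helper11, bytes of the master of helper17).  Imports: the spec and
`T1/H11/LocComp.lean` (closure: `H11/LC.lean`, `H11/SC.lean`).  New names only (suffix `634`),
no hole, nothing assumed.

Proof (abstract part: a locally compact, Hausdorff, second countable group `H` with a Haar
measure `μ`).  `F(y, (a, b)) = p a y · q b (y⁻¹ h)` is continuous with compact support in
`C₁ × Ω₁ × Ω₂`, hence integrable for `μ × (ν₁ × ν₂)`; `integral_prod_mul` and Fubini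
(`integral_integral_swap`) give the formula.  The convolution of the members is the integral
over the compact set `C₁` of a jointly continuous function
(`continuous_parametric_integral_of_continuous`), and it is supported in `C₁ C₂`.
-/

set_option autoImplicit false
set_option linter.unusedSectionVars false
set_option linter.unusedVariables false

open MeasureTheory
open scoped Pointwise

noncomputable section

namespace Fermat.Agent.LT.T7.H634

open Fermat.Agent.LT.H556 Fermat.Agent.LT.H556.A0 Fermat.Agent.LT.T7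

attribute [local instance] Fermat.Agent.LT.T5.instMeasurableSpaceG

/-! ## 1. The abstract statements -/

section Abstract

variable {H : Type} [Group H] [TopologicalSpace H] [IsTopologicalGroup H]
  [LocallyCompactSpace H] [T2Space H] [SecondCountableTopology H]
  [MeasurableSpace H] [BorelSpace H]
  {Ω₁ : Type} [TopologicalSpace Ω₁] [CompactSpace Ω₁] [T2Space Ω₁]
  [SecondCountableTopology Ω₁] [MeasurableSpace Ω₁] [BorelSpace Ω₁]
  {Ω₂ : Type} [TopologicalSpace Ω₂] [CompactSpace Ω₂] [T2Space Ω₂]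
  [SecondCountableTopology Ω₂] [MeasurableSpace Ω₂] [BorelSpace Ω₂]

/-- The integrand of the convolution of the members is jointly continuous. -/
theorem cont_integrand634 (p : Ω₁ → H → ℂ) (q : Ω₂ → H → ℂ)
    (hp : Continuous (fun x : Ω₁ × H => p x.1 x.2))
    (hq : Continuous (fun x : Ω₂ × H => q x.1 x.2)) :
    Continuous (fun z : ((Ω₁ × Ω₂) × H) × H => p z.1.1.1 z.2 * q z.1.1.2 (z.2⁻¹ * z.1.2)) := by
  have h1 : Continuous (fun z : ((Ω₁ × Ω₂) × H) × H => (z.1.1.1, z.2)) := by fun_prop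
  have h2 : Continuous (fun z : ((Ω₁ × Ω₂) × H) × H => (z.1.1.2, z.2⁻¹ * z.1.2)) := by fun_prop
  exact (hp.comp h1).mul (hq.comp h2)

/-- The convolution of two averages is the average of the convolutions. -/
theorem conv_avg_eq634 (μ : Measure H) [μ.IsHaarMeasure]
    (ν₁ : Measure Ω₁) [IsFiniteMeasure ν₁] (ν₂ : Measure Ω₂) [IsFiniteMeasure ν₂]
    (p : Ω₁ → H → ℂ) (q : Ω₂ → H → ℂ)
    (hp : Continuous (fun x : Ω₁ × H => p x.1 x.2))
    (hq : Continuous (fun x : Ω₂ × H => q x.1 x.2))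
    (C₁ : Set H) (hC₁ : IsCompact C₁) (hpC : ∀ (a : Ω₁) (h : H), p a h ≠ 0 → h ∈ C₁) (h : H) :
    ∫ y, (∫ a, p a y ∂ν₁) * (∫ b, q b (y⁻¹ * h) ∂ν₂) ∂μ
      = ∫ x : Ω₁ × Ω₂, (∫ y, p x.1 y * q x.2 (y⁻¹ * h) ∂μ) ∂(ν₁.prod ν₂) := by
  have hA : ∀ y : H, (∫ a, p a y ∂ν₁) * (∫ b, q b (y⁻¹ * h) ∂ν₂)
      = ∫ x : Ω₁ × Ω₂, p x.1 y * q x.2 (y⁻¹ * h) ∂(ν₁.prod ν₂) := fun y =>
    (integral_prod_mul (μ := ν₁) (ν := ν₂) (fun a => p a y) (fun b => q b (y⁻¹ * h))).symm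
  have hcont : Continuous (Function.uncurry
      (fun (y : H) (x : Ω₁ × Ω₂) => p x.1 y * q x.2 (y⁻¹ * h))) := by
    have h0 : Continuous (fun z : H × (Ω₁ × Ω₂) => (((z.2.1, z.2.2), h), z.1)) := by fun_prop
    exact (cont_integrand634 p q hp hq).comp h0
  have hsupp : HasCompactSupport (Function.uncurry
      (fun (y : H) (x : Ω₁ × Ω₂) => p x.1 y * q x.2 (y⁻¹ * h))) := by
    refine HasCompactSupport.intro (hC₁.prod (isCompact_univ : IsCompact (Set.univ : Set (Ω₁ × Ω₂))))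
      fun z hz => ?_
    have hz1 : z.1 ∉ C₁ := fun hmem => hz ⟨hmem, Set.mem_univ _⟩
    have hp0 : p z.2.1 z.1 = 0 := by
      by_contra h0
      exact hz1 (hpC _ _ h0)
    show p z.2.1 z.1 * q z.2.2 (z.1⁻¹ * h) = 0
    rw [hp0, zero_mul]
  have hint : Integrable (Function.uncurry
      (fun (y : H) (x : Ω₁ × Ω₂) => p x.1 y * q x.2 (y⁻¹ * h))) (μ.prod (ν₁.prod ν₂)) :=
    hcont.integrable_of_hasCompactSupport hsupp
  calc ∫ y, (∫ a, p a y ∂ν₁) * (∫ b, q b (y⁻¹ * h) ∂ν₂) ∂μ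
      = ∫ y, ∫ x : Ω₁ × Ω₂, p x.1 y * q x.2 (y⁻¹ * h) ∂(ν₁.prod ν₂) ∂μ :=
        integral_congr_ae (Filter.Eventually.of_forall hA)
    _ = ∫ x : Ω₁ × Ω₂, (∫ y, p x.1 y * q x.2 (y⁻¹ * h) ∂μ) ∂(ν₁.prod ν₂) :=
        integral_integral_swap hint

/-- The family of the convolutions is jointly continuous. -/
theorem conv_cont634 (μ : Measure H) [μ.IsHaarMeasure]
    (p : Ω₁ → H → ℂ) (q : Ω₂ → H → ℂ)
    (hp : Continuous (fun x : Ω₁ × H => p x.1 x.2))
    (hq : Continuous (fun x : Ω₂ × H => q x.1 x.2))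
    (C₁ : Set H) (hC₁ : IsCompact C₁) (hpC : ∀ (a : Ω₁) (h : H), p a h ≠ 0 → h ∈ C₁) :
    Continuous (fun x : (Ω₁ × Ω₂) × H => ∫ y, p x.1.1 y * q x.1.2 (y⁻¹ * x.2) ∂μ) := by
  have h1 : (fun x : (Ω₁ × Ω₂) × H => ∫ y, p x.1.1 y * q x.1.2 (y⁻¹ * x.2) ∂μ)
      = fun x : (Ω₁ × Ω₂) × H => ∫ y in C₁, p x.1.1 y * q x.1.2 (y⁻¹ * x.2) ∂μ := by
    funext x
    refine (setIntegral_eq_integral_of_forall_compl_eq_zero fun y hy => ?_).symm
    have hp0 : p x.1.1 y = 0 := by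
      by_contra h0
      exact hy (hpC _ _ h0)
    rw [hp0, zero_mul]
  rw [h1]
  exact continuous_parametric_integral_of_continuous
    (f := fun (x : (Ω₁ × Ω₂) × H) (y : H) => p x.1.1 y * q x.1.2 (y⁻¹ * x.2))
    (cont_integrand634 p q hp hq) hC₁

/-- The convolutions of the members are supported in `C₁ C₂`. -/
theorem conv_supp634 (μ : Measure H)
    (p : Ω₁ → H → ℂ) (q : Ω₂ → H → ℂ)
    (C₁ : Set H) (hpC : ∀ (a : Ω₁) (h : H), p a h ≠ 0 → h ∈ C₁)
    (C₂ : Set H) (hqC : ∀ (b : Ω₂) (h : H), q b h ≠ 0 → h ∈ C₂)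
    (x : Ω₁ × Ω₂) (h : H) (hne : ∫ y, p x.1 y * q x.2 (y⁻¹ * h) ∂μ ≠ 0) : h ∈ C₁ * C₂ := by
  by_contra hh
  apply hne
  have h0 : ∀ y : H, p x.1 y * q x.2 (y⁻¹ * h) = 0 := by
    intro y
    by_contra hy
    have hpy : p x.1 y ≠ 0 := fun h' => hy (by rw [h', zero_mul])
    have hqy : q x.2 (y⁻¹ * h) ≠ 0 := fun h' => hy (by rw [h', mul_zero])
    apply hh
    refine Set.mem_mul.2 ⟨y, hpC _ _ hpy, y⁻¹ * h, hqC _ _ hqy, ?_⟩
    rw [mul_inv_cancel_left]
  rw [integral_congr_ae (Filter.Eventually.of_forall h0), integral_zero]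

end Abstract

/-! ## 2. The leaf -/

section Leaf

variable (K : Type) [Field K] [NumberField K]

theorem conv_apply634 (μ : Measure (G K)) (φ₁ φ₂ : G K → ℂ) (g : G K) :
    T5.conv μ φ₁ φ₂ g = ∫ y, φ₁ y * φ₂ (y⁻¹ * g) ∂μ := rfl

/-- **PT.3 `ConvAvgC563`** from `T1.LocCompC` (VERBATIM `PT563.ConvAvgC563 K`). -/
theorem convAvgC_of_locComp634 (hLC : T1.LocCompC K) : PT563.ConvAvgC563 K := by
  intro μ hμ Ω₁ _ _ _ _ _ _ ν₁ _ Ω₂ _ _ _ _ _ _ ν₂ _ p q hp hq hC₁ hC₂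
  obtain ⟨C₁, hC₁, hpC⟩ := hC₁
  obtain ⟨C₂, hC₂, hqC⟩ := hC₂
  obtain ⟨_, hlc, ht2, hsc⟩ := hLC
  have : LocallyCompactSpace (G K) := hlc
  have : T2Space (G K) := ht2
  have : SecondCountableTopology (G K) := hsc
  have : BorelSpace (G K) := ⟨rfl⟩
  have : μ.IsHaarMeasure := hμ
  refine ⟨fun h => ?_, ?_, C₁ * C₂, hC₁.mul hC₂, fun x h hne => ?_⟩
  · exact conv_avg_eq634 μ ν₁ ν₂ p q hp hq C₁ hC₁ hpC h
  · exact conv_cont634 μ p q hp hq C₁ hC₁ hpC
  · exact conv_supp634 μ p q C₁ hpC C₂ hqC x h hne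

/-- **PT.3 `ConvAvgC563`** (VERBATIM `PT563.ConvAvgC563 K`, unconditional). -/
theorem convAvgC634 : PT563.ConvAvgC563 K :=
  convAvgC_of_locComp634 K (T1.H11.locCompC_h11 K)

end Leaf

end Fermat.Agent.LT.T7.H634

end
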